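import Mathlib

set_option autoImplicit false

namespace Fermat.Agent.S57.H57

open RingTheory.Sequence IsLocalRing Submodule Pointwise CategoryTheory Abelian

universe u v

theorem smul_top_lt_top {A : Type u} [CommRing A] [IsLocalRing A]
    (N : Type v) [AddCommGroup N] [Module A N] [Module.Finite A N] [Nontrivial N] :
    (maximalIdeal A) • (⊤ : Submodule A N) < ⊤ := by
  refine lt_top_iff_ne_top.mpr (Ne.symm ?_)
  exact Submodule.top_ne_ideal_smul_of_le_jacobson_annihilator (maximalIdeal_le_jacobson _)

theorem exists_isRegular_quotSMulTop {A : Type u} [CommRing A] [IsLocalRing A] [IsNoetherianRing A]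
    (N : Type v) [AddCommGroup N] [Module A N] [Module.Finite A N] [Small.{v} A]
    {x : A} (hx : x ∈ maximalIdeal A) (hreg : IsSMulRegular N x)
    (n : ℕ) (rs : List A) (hlen : rs.length = n + 1) (hmem : ∀ r ∈ rs, r ∈ maximalIdeal A)
    (h : IsRegular N rs) :
    ∃ rs' : List A, rs'.length = n ∧ (∀ r ∈ rs', r ∈ maximalIdeal A) ∧
      IsRegular (QuotSMulTop x N) rs' := by
  have : Nontrivial N := h.nontrivial
  have : Nontrivial (QuotSMulTop x N) := nontrivial_quotSMulTop_of_mem_maximalIdeal N hx
  have hlt := smul_top_lt_top (A := A) N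
  have hlt' := smul_top_lt_top (A := A) (QuotSMulTop x N)
  have t1 := (ModuleCat.exists_isRegular_tfae (maximalIdeal A) (n + 1) (ModuleCat.of A N) hlt).out 3 1
  have h2 : ∀ i < n + 1, Subsingleton
      (Ext (ModuleCat.of A (Shrink.{v} (A ⧸ maximalIdeal A))) (ModuleCat.of A N) i) :=
    t1.mp ⟨rs, hlen, hmem, h⟩
  have h2' : ∀ i < n, Subsingleton
      (Ext (ModuleCat.of A (Shrink.{v} (A ⧸ maximalIdeal A)))
        (ModuleCat.of A (QuotSMulTop x N)) i) := by
    intro i hi
    have hreg' : IsSMulRegular (ModuleCat.of A N) x := hreg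
    have zero1 := AddCommGrpCat.isZero_of_iff_subsingleton.mpr (h2 i (by omega))
    have zero2 := AddCommGrpCat.isZero_of_iff_subsingleton.mpr (h2 (i + 1) (by omega))
    exact AddCommGrpCat.subsingleton_of_isZero <| ShortComplex.Exact.isZero_of_both_zeros
      ((Ext.covariant_sequence_exact₃' (ModuleCat.of A (Shrink.{v} (A ⧸ maximalIdeal A)))
        hreg'.smulShortComplex_shortExact) i (i + 1) rfl)
      (zero1.eq_zero_of_src _) (zero2.eq_zero_of_tgt _)
  have t2 := (ModuleCat.exists_isRegular_tfae (maximalIdeal A) n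
    (ModuleCat.of A (QuotSMulTop x N)) hlt').out 1 3
  exact t2.mp h2'

theorem le_ringKrullDim_quotient_of_isAssociatedPrime {A : Type u} [CommRing A] [IsLocalRing A]
    [IsNoetherianRing A] (rs : List A) :
    ∀ (N : Type v) [AddCommGroup N] [Module A N] [Module.Finite A N],
      (∀ r ∈ rs, r ∈ maximalIdeal A) → IsWeaklyRegular N rs →
      ∀ p : Ideal A, IsAssociatedPrime p N →
        (rs.length : WithBot ℕ∞) ≤ ringKrullDim (A ⧸ p) := by
  induction rs with
  | nil =>
    intro N _ _ _ _ _ p hp
    have := hp.isPrime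
    simpa using ringKrullDim_nonneg_of_nontrivial (R := A ⧸ p)
  | cons x rs ih =>
    intro N _ _ _ hmem hreg p hp
    rw [isWeaklyRegular_cons_iff] at hreg
    obtain ⟨hx, hrs⟩ := hreg
    have hpP := hp.isPrime
    obtain ⟨-, u, hu⟩ := isAssociatedPrime_iff.mp hp
    have hu0 : u ≠ 0 := by
      rintro rfl
      apply hpP.ne_top
      rw [hu]
      ext a
      simp [mem_colon_singleton]
    have hxp : x ∉ p := by
      rw [hu, mem_colon_singleton, mem_bot]
      intro h
      exact hu0 (hx.right_eq_zero_of_smul h)
    have hxm : x ∈ maximalIdeal A := hmem x List.mem_cons_self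
    -- the p-torsion
    obtain ⟨v, hvU, hvx⟩ : ∃ v : N, (∀ a ∈ p, a • v = 0) ∧ v ∉ x • (⊤ : Submodule A N) := by
      by_contra hcon
      push Not at hcon
      let U : Submodule A N := torsionBySet A N (p : Set A)
      have hU : ∀ v, v ∈ U ↔ ∀ a ∈ p, a • v = 0 := by
        intro v
        simp [U, mem_torsionBySet_iff]
      have hUle : U ≤ maximalIdeal A • U := by
        intro v hv
        have hv' := hcon v ((hU v).mp hv)
        obtain ⟨w, -, rfl⟩ := (Submodule.mem_smul_pointwise_iff_exists _ _ _).mp hv'
        refine Submodule.smul_mem_smul hxm ((hU w).mpr fun a ha => ?_)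
        apply hx.right_eq_zero_of_smul
        rw [smul_comm]
        exact (hU _).mp hv a ha
      have hUbot : U = ⊥ :=
        Submodule.eq_bot_of_le_smul_of_le_jacobson_bot (maximalIdeal A) U
          (IsNoetherian.noetherian U) hUle (maximalIdeal_le_jacobson _)
      have huU : u ∈ U := (hU u).mpr fun a ha => by
        rw [hu, mem_colon_singleton, mem_bot] at ha
        exact ha
      rw [hUbot, mem_bot] at huU
      exact hu0 huU
    have hv0 : (Submodule.Quotient.mk v : QuotSMulTop x N) ≠ 0 := by
      rwa [Ne, Submodule.Quotient.mk_eq_zero]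
    obtain ⟨Q, hQ, hQle⟩ := exists_le_isAssociatedPrime_of_isNoetherianRing A _ hv0
    have hQP := hQ.isPrime
    have hpQ : p ≤ Q := fun a ha => hQle (by
      rw [mem_colon_singleton, mem_bot, ← Submodule.Quotient.mk_smul, hvU a ha,
        Submodule.Quotient.mk_zero])
    have hxQ : x ∈ Q := hQle (by
      rw [mem_colon_singleton, mem_bot, ← Submodule.Quotient.mk_smul,
        Submodule.Quotient.mk_eq_zero]
      exact Submodule.smul_mem_pointwise_smul v x ⊤ mem_top)
    have ih' := ih (QuotSMulTop x N) (fun r hr => hmem r (List.mem_cons_of_mem _ hr)) hrs Q hQ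
    have hstep : ringKrullDim (A ⧸ Q) + 1 ≤ ringKrullDim (A ⧸ p) := by
      refine ringKrullDim_succ_le_of_surjective (Ideal.Quotient.factor hpQ)
        (Ideal.Quotient.factor_surjective hpQ) (r := Ideal.Quotient.mk p x) ?_ ?_
      · apply mem_nonZeroDivisors_of_ne_zero
        rwa [Ne, Ideal.Quotient.eq_zero_iff_mem]
      · rw [Ideal.Quotient.factor_mk, Ideal.Quotient.eq_zero_iff_mem]
        exact hxQ
    calc ((x :: rs).length : WithBot ℕ∞) = (rs.length : WithBot ℕ∞) + 1 := by
          simp
      _ ≤ ringKrullDim (A ⧸ Q) + 1 := by gcongr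
      _ ≤ ringKrullDim (A ⧸ p) := hstep

theorem ringKrullDim_quotient_le_length {A : Type u} [CommRing A] [IsLocalRing A]
    [IsNoetherianRing A] (I : Ideal A) (hI : I ≠ ⊤) (ys : List A)
    (h : I ⊔ Ideal.ofList ys = maximalIdeal A) :
    ringKrullDim (A ⧸ I) ≤ (ys.length : WithBot ℕ∞) := by
  have : Nontrivial (A ⧸ I) := Ideal.Quotient.nontrivial_iff.mpr hI
  have : IsLocalRing (A ⧸ I) := .of_surjective' (Ideal.Quotient.mk I) Ideal.Quotient.mk_surjective
  have hmax : maximalIdeal (A ⧸ I) = Ideal.ofList (ys.map (Ideal.Quotient.mk I)) := by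
    rw [← map_maximalIdeal_of_surjective (Ideal.Quotient.mk I) Ideal.Quotient.mk_surjective,
      ← Ideal.map_ofList, ← h, Ideal.map_sup, Ideal.map_quotient_self, bot_sup_eq]
  refine (ringKrullDim_le_spanFinrank_maximalIdeal (A ⧸ I)).trans ?_
  rw [hmax]
  have hfin : ({r | r ∈ ys.map (Ideal.Quotient.mk I)} : Set (A ⧸ I)).Finite :=
    List.finite_toSet _
  have h1 := Submodule.spanFinrank_span_le_ncard_of_finite (R := A ⧸ I) hfin
  have h2 : ({r | r ∈ ys.map (Ideal.Quotient.mk I)} : Set (A ⧸ I)).ncard ≤ ys.length := by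
    classical
    have : ({r | r ∈ ys.map (Ideal.Quotient.mk I)} : Set (A ⧸ I)) =
        ((ys.map (Ideal.Quotient.mk I)).toFinset : Set (A ⧸ I)) := by
      ext; simp
    rw [this, Set.ncard_coe_finset]
    exact (List.toFinset_card_le _).trans (by simp)
  have h3 : (Ideal.ofList (ys.map (Ideal.Quotient.mk I))).spanFinrank ≤ ys.length := h1.trans h2
  exact_mod_cast h3

theorem free_of_regular (n : ℕ) :
    ∀ (A : Type) [CommRing A] [IsLocalRing A] [IsNoetherianRing A] (xs : List A),
      xs.length = n → Ideal.ofList xs = maximalIdeal A →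
      ∀ (N : Type) [AddCommGroup N] [Module A N] [Module.Finite A N] (rs : List A),
        rs.length = n → (∀ r ∈ rs, r ∈ maximalIdeal A) → IsWeaklyRegular N rs →
        Module.Free A N := by
  induction n with
  | zero =>
    intro A _ _ _ xs hxs hspan N _ _ _ rs _ _ _
    have hxs' : xs = [] := List.length_eq_zero_iff.mp hxs
    subst hxs'
    rw [Ideal.ofList_nil] at hspan
    have hF : IsField A := IsLocalRing.isField_iff_maximalIdeal_eq.mpr hspan.symm
    let _ := hF.toField
    exact Module.Free.of_divisionRing A N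
  | succ n ih =>
    intro A _ _ _ xs hxs hspan N _ _ _ rs hrs hmem hreg
    match xs, hxs, hspan with
    | x :: xs', hxs, hspan =>
      by_cases hN : Subsingleton N
      · exact Module.Free.of_subsingleton A N
      rw [not_subsingleton_iff_nontrivial] at hN
      have hxm : x ∈ maximalIdeal A := by
        rw [← hspan]
        exact Ideal.subset_span List.mem_cons_self
      have hx : IsSMulRegular N x := by
        by_contra hx
        have hmemU : x ∈ ⋃ p ∈ associatedPrimes A N, (p : Set A) := by
          rw [biUnion_associatedPrimes_eq_compl_regular]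
          exact hx
        obtain ⟨p, hp, hxp⟩ := Set.mem_iUnion₂.mp hmemU
        have hpP : p.IsPrime := hp.isPrime
        have h1 := le_ringKrullDim_quotient_of_isAssociatedPrime rs N hmem hreg p hp
        have h2 : ringKrullDim (A ⧸ p) ≤ (xs'.length : WithBot ℕ∞) := by
          apply ringKrullDim_quotient_le_length p hpP.ne_top xs'
          apply le_antisymm
          · refine sup_le (le_maximalIdeal hpP.ne_top) ?_
            rw [← hspan, Ideal.ofList_cons]
            exact le_sup_right
          · rw [← hspan, Ideal.ofList_cons]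
            refine sup_le_sup_right ?_ _
            rwa [Ideal.span_singleton_le_iff_mem]
        have h3 := h1.trans h2
        rw [hrs] at h3
        simp only [List.length_cons, Nat.add_right_cancel_iff] at hxs
        rw [hxs] at h3
        have h4 : n + 1 ≤ n := by exact_mod_cast h3
        omega
      have hreg' : IsRegular N rs := IsRegular.of_isWeaklyRegular_of_mem_maximalIdeal N hmem hreg
      obtain ⟨rs', hlen', hmem', hreg''⟩ := exists_isRegular_quotSMulTop N hxm hx n rs hrs hmem hreg'
      have hne : Ideal.span {x} ≠ ⊤ := by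
        rw [Ne, Ideal.span_singleton_eq_top]
        exact hxm
      have : Nontrivial (A ⧸ Ideal.span {x}) := Ideal.Quotient.nontrivial_iff.mpr hne
      have : IsLocalRing (A ⧸ Ideal.span {x}) :=
        .of_surjective' (Ideal.Quotient.mk _) Ideal.Quotient.mk_surjective
      have hmap : (maximalIdeal A).map (Ideal.Quotient.mk (Ideal.span {x})) =
          maximalIdeal (A ⧸ Ideal.span {x}) :=
        map_maximalIdeal_of_surjective _ Ideal.Quotient.mk_surjective
      have hfin : Module.Finite (A ⧸ Ideal.span {x}) (QuotSMulTop x N) :=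
        Module.Finite.of_restrictScalars_finite A (A ⧸ Ideal.span {x}) (QuotSMulTop x N)
      have hmax' : Ideal.ofList (xs'.map (Ideal.Quotient.mk (Ideal.span {x}))) =
          maximalIdeal (A ⧸ Ideal.span {x}) := by
        rw [← hmap, ← hspan, Ideal.ofList_cons, Ideal.map_sup, Ideal.map_quotient_self,
          bot_sup_eq, Ideal.map_ofList]
      have hfree : Module.Free (A ⧸ Ideal.span {x}) (QuotSMulTop x N) := by
        refine ih (A ⧸ Ideal.span {x}) (xs'.map (Ideal.Quotient.mk _)) ?_ hmax'
          (QuotSMulTop x N) (rs'.map (Ideal.Quotient.mk _)) ?_ ?_ ?_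
        · simpa using hxs
        · simpa using hlen'
        · intro r hr
          obtain ⟨r', hr', rfl⟩ := List.mem_map.mp hr
          rw [← hmap]
          exact Ideal.mem_map_of_mem _ (hmem' r' hr')
        · exact (isWeaklyRegular_map_algebraMap_iff (A ⧸ Ideal.span {x}) (QuotSMulTop x N) rs').mpr
            hreg''.toIsWeaklyRegular
      have hjac : x ∈ (⊥ : Ideal A).jacobson := maximalIdeal_le_jacobson _ hxm
      have hfp : Module.FinitePresentation A N := Module.finitePresentation_of_finite A N
      exact (Module.free_quotSMulTop_iff_free A N hjac hx).mp hfree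

end Fermat.Agent.S57.H57
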