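import Mathlib

set_option autoImplicit false

namespace Fermat.Agent.S57.H54

open MvPowerSeries

variable {O : Type} [CommRing O]

/-- Power series all of whose coefficients at monomials with vanishing first `i` exponents
lie in the ideal `I`. -/
def lowIdeal (r : ℕ) (I : Ideal O) (i : ℕ) : Ideal (MvPowerSeries (Fin r) O) where
  carrier := {f | ∀ m : Fin r →₀ ℕ, (∀ j : Fin r, (j : ℕ) < i → m j = 0) → coeff m f ∈ I}
  add_mem' := by
    intro f g hf hg m hm
    rw [map_add]
    exact I.add_mem (hf m hm) (hg m hm)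
  zero_mem' := by
    intro m _
    rw [map_zero]
    exact I.zero_mem
  smul_mem' := by
    classical
    intro c f hf m hm
    rw [smul_eq_mul, coeff_mul]
    refine I.sum_mem fun p hp => I.mul_mem_left _ (hf p.2 fun j hj => ?_)
    have hp' : p.1 + p.2 = m := by simpa using hp
    have h1 : p.1 j + p.2 j = m j := by rw [← hp']; rfl
    have h2 := hm j hj
    omega

theorem mem_lowIdeal {r : ℕ} {I : Ideal O} {i : ℕ} {f : MvPowerSeries (Fin r) O} :
    f ∈ lowIdeal r I i ↔
      ∀ m : Fin r →₀ ℕ, (∀ j : Fin r, (j : ℕ) < i → m j = 0) → coeff m f ∈ I :=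
  Iff.rfl

theorem lowIdeal_zero_le (r : ℕ) (ϖ : O) :
    lowIdeal r (Ideal.span {ϖ}) 0 ≤ Ideal.span {(C ϖ : MvPowerSeries (Fin r) O)} := by
  intro f hf
  have h : ∀ m : Fin r →₀ ℕ, ∃ a : O, a * ϖ = coeff m f := fun m =>
    Ideal.mem_span_singleton'.mp (hf m fun j hj => absurd hj (Nat.not_lt_zero _))
  choose g hg using h
  let G : MvPowerSeries (Fin r) O := g
  have hG : ∀ m, coeff m G = g m := fun m => rfl
  refine Ideal.mem_span_singleton'.mpr ⟨G, ?_⟩
  ext m
  rw [coeff_mul_C, hG]
  exact hg m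

theorem lowIdeal_succ_le (r : ℕ) (I : Ideal O) (i : ℕ) (hi : i < r) :
    lowIdeal r I (i + 1) ≤
      lowIdeal r I i ⊔ Ideal.span {(X ⟨i, hi⟩ : MvPowerSeries (Fin r) O)} := by
  classical
  intro f hf
  set s : Fin r := ⟨i, hi⟩ with hs
  let g : MvPowerSeries (Fin r) O := fun m =>
    if (∀ j : Fin r, (j : ℕ) < i → m j = 0) then coeff (m + Finsupp.single s 1) f else 0
  have hg : ∀ m, coeff m g =
      if (∀ j : Fin r, (j : ℕ) < i → m j = 0) then coeff (m + Finsupp.single s 1) f else 0 :=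
    fun m => rfl
  have hsplit : f = (f - X s * g) + X s * g := by ring
  rw [hsplit]
  refine Ideal.add_mem _ (Ideal.mem_sup_left ?_)
    (Ideal.mem_sup_right (Ideal.mul_mem_right _ _ (Ideal.subset_span rfl)))
  intro m hm
  rw [map_sub, X_def, coeff_monomial_mul, one_mul]
  by_cases hms : m s = 0
  · have hle : ¬ Finsupp.single s 1 ≤ m := by
      intro hle
      have := hle s
      simp only [Finsupp.single_eq_same] at this
      omega
    rw [if_neg hle, sub_zero]
    refine hf m fun j hj => ?_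
    rcases Nat.lt_succ_iff_lt_or_eq.mp hj with h | h
    · exact hm j h
    · have : j = s := Fin.ext h
      rw [this]; exact hms
  · have hle : Finsupp.single s 1 ≤ m := by
      intro j
      by_cases hj : j = s
      · subst hj
        simp only [Finsupp.single_eq_same]
        omega
      · rw [Finsupp.single_eq_of_ne hj]
        exact Nat.zero_le _
    rw [if_pos hle, hg, if_pos, tsub_add_cancel_of_le hle, sub_self]
    · exact I.zero_mem
    · intro j hj
      have := hm j hj
      simp only [Finsupp.coe_tsub, Pi.sub_apply]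
      omega

theorem lowIdeal_le_ofList (r : ℕ) (ϖ : O) (i : ℕ) (hi : i ≤ r) :
    lowIdeal r (Ideal.span {ϖ}) i ≤
      Ideal.ofList ((C ϖ : MvPowerSeries (Fin r) O) ::
        (List.ofFn (X : Fin r → MvPowerSeries (Fin r) O)).take i) := by
  induction i with
  | zero =>
    rw [List.take_zero, Ideal.ofList_singleton]
    exact lowIdeal_zero_le r ϖ
  | succ i ih =>
    have hi' : i < r := hi
    have hlen : i < (List.ofFn (X : Fin r → MvPowerSeries (Fin r) O)).length := by
      rw [List.length_ofFn]; exact hi'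
    have htake : (List.ofFn (X : Fin r → MvPowerSeries (Fin r) O)).take (i + 1) =
        (List.ofFn (X : Fin r → MvPowerSeries (Fin r) O)).take i ++ [X ⟨i, hi'⟩] := by
      rw [List.take_succ_eq_append_getElem hlen, List.getElem_ofFn]
    rw [htake, ← List.cons_append, Ideal.ofList_append, Ideal.ofList_singleton]
    exact (lowIdeal_succ_le r _ i hi').trans (sup_le_sup_right (ih hi'.le) _)

theorem ofList_le_lowIdeal (r : ℕ) (ϖ : O) (i : ℕ) :
    Ideal.ofList ((C ϖ : MvPowerSeries (Fin r) O) ::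
        (List.ofFn (X : Fin r → MvPowerSeries (Fin r) O)).take i) ≤
      lowIdeal r (Ideal.span {ϖ}) i := by
  classical
  refine Ideal.span_le.mpr ?_
  intro x hx
  rcases List.mem_cons.mp hx with rfl | hx
  · intro m _
    rw [coeff_C]
    split_ifs
    · exact Ideal.subset_span rfl
    · exact Ideal.zero_mem _
  · obtain ⟨k, hk, rfl⟩ := List.mem_take_iff_getElem.mp hx
    rw [List.getElem_ofFn]
    intro m hm
    rw [coeff_X, if_neg]
    · exact Ideal.zero_mem _
    · intro hmeq
      have h1 : k < i := (lt_min_iff.mp hk).1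
      have h2 := hm ⟨k, by simpa using (lt_min_iff.mp hk).2⟩ h1
      rw [hmeq, Finsupp.single_eq_same] at h2
      exact one_ne_zero h2

theorem ofList_eq_lowIdeal (r : ℕ) (ϖ : O) (i : ℕ) (hi : i ≤ r) :
    Ideal.ofList ((C ϖ : MvPowerSeries (Fin r) O) ::
        (List.ofFn (X : Fin r → MvPowerSeries (Fin r) O)).take i) =
      lowIdeal r (Ideal.span {ϖ}) i :=
  le_antisymm (ofList_le_lowIdeal r ϖ i) (lowIdeal_le_ofList r ϖ i hi)

/-- `X i` is a nonzerodivisor modulo `lowIdeal r I i`. -/
theorem mem_lowIdeal_of_X_mul_mem (r : ℕ) (I : Ideal O) (i : ℕ) (hi : i < r)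
    (f : MvPowerSeries (Fin r) O)
    (h : (X ⟨i, hi⟩ : MvPowerSeries (Fin r) O) * f ∈ lowIdeal r I i) :
    f ∈ lowIdeal r I i := by
  intro m hm
  have h1 := h (Finsupp.single ⟨i, hi⟩ 1 + m) (by
    intro j hj
    have hne : j ≠ (⟨i, hi⟩ : Fin r) := fun hji => by
      rw [hji] at hj; exact lt_irrefl _ hj
    simp only [Finsupp.coe_add, Pi.add_apply, Finsupp.single_eq_of_ne hne, hm j hj, add_zero])
  rwa [X_def, coeff_add_monomial_mul, one_mul] at h1

/-- (G2) The sequence `ϖ, X_0, …, X_{r-1}` is weakly regular on `O⟦X_0, …, X_{r-1}⟧` as soon as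
`ϖ` is a nonzerodivisor of `O`. -/
theorem isWeaklyRegular_C_cons_X (r : ℕ) (ϖ : O) (hϖ : ϖ ∈ nonZeroDivisors O) :
    RingTheory.Sequence.IsWeaklyRegular (MvPowerSeries (Fin r) O)
      ((C ϖ : MvPowerSeries (Fin r) O) :: List.ofFn (X : Fin r → MvPowerSeries (Fin r) O)) := by
  rw [RingTheory.Sequence.isWeaklyRegular_iff]
  intro i hi
  rw [isSMulRegular_quotient_iff_mem_of_smul_mem]
  intro f hf
  rw [smul_eq_mul, Ideal.mul_top] at hf ⊢
  rcases i with _ | i
  · rw [List.take_zero, Ideal.ofList_nil, Ideal.mem_bot] at hf ⊢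
    rw [List.getElem_cons_zero, smul_eq_mul] at hf
    ext m
    have h1 := congrArg (coeff m) hf
    rw [coeff_C_mul, map_zero] at h1
    rw [map_zero]
    exact (mul_left_mem_nonZeroDivisors_eq_zero_iff hϖ).mp h1
  · have hi' : i < r := by
      rw [List.length_cons, List.length_ofFn] at hi
      omega
    rw [List.take_succ_cons, ofList_eq_lowIdeal r ϖ i hi'.le] at hf ⊢
    rw [List.getElem_cons_succ, List.getElem_ofFn, smul_eq_mul] at hf
    exact mem_lowIdeal_of_X_mul_mem r _ i hi' f hf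

/-- (G1), general form: if the maximal ideal of the local ring `O` is generated by `ϖ`, then the
maximal ideal of `O⟦X_0, …, X_{r-1}⟧` is generated by `ϖ, X_0, …, X_{r-1}`. -/
theorem maximalIdeal_eq_ofList_of_span [IsLocalRing O] (r : ℕ) (ϖ : O)
    (hϖ : IsLocalRing.maximalIdeal O = Ideal.span {ϖ}) :
    IsLocalRing.maximalIdeal (MvPowerSeries (Fin r) O) =
      Ideal.ofList ((C ϖ : MvPowerSeries (Fin r) O) ::
        List.ofFn (X : Fin r → MvPowerSeries (Fin r) O)) := by
  have htake : (List.ofFn (X : Fin r → MvPowerSeries (Fin r) O)).take r =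
      List.ofFn (X : Fin r → MvPowerSeries (Fin r) O) :=
    List.take_of_length_le (by rw [List.length_ofFn])
  have h := ofList_eq_lowIdeal r ϖ r le_rfl
  rw [htake] at h
  rw [h]
  ext f
  rw [IsLocalRing.mem_maximalIdeal, mem_nonunits_iff, MvPowerSeries.isUnit_iff_constantCoeff,
    ← mem_nonunits_iff, ← IsLocalRing.mem_maximalIdeal, hϖ, mem_lowIdeal]
  constructor
  · intro hf m hm
    have hm0 : m = 0 := by
      ext j
      exact hm j j.isLt
    rw [hm0]
    exact hf
  · intro hf
    exact hf 0 fun j _ => rfl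

/-- (G1) for a discrete valuation ring with uniformizer `ϖ`. -/
theorem maximalIdeal_eq_ofList [IsDomain O] [IsDiscreteValuationRing O] (r : ℕ) (ϖ : O)
    (hϖ : Irreducible ϖ) :
    IsLocalRing.maximalIdeal (MvPowerSeries (Fin r) O) =
      Ideal.ofList ((C ϖ : MvPowerSeries (Fin r) O) ::
        List.ofFn (X : Fin r → MvPowerSeries (Fin r) O)) :=
  maximalIdeal_eq_ofList_of_span r ϖ hϖ.maximalIdeal_eq

/-- (G2) for a domain and `ϖ ≠ 0`. -/
theorem isWeaklyRegular_C_cons_X_of_ne_zero [IsDomain O] (r : ℕ) (ϖ : O) (hϖ : ϖ ≠ 0) :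
    RingTheory.Sequence.IsWeaklyRegular (MvPowerSeries (Fin r) O)
      ((C ϖ : MvPowerSeries (Fin r) O) :: List.ofFn (X : Fin r → MvPowerSeries (Fin r) O)) :=
  isWeaklyRegular_C_cons_X r ϖ (mem_nonZeroDivisors_of_ne_zero hϖ)

/-- (G3) A sequence weakly regular on the ring is weakly regular on every flat module. -/
theorem isWeaklyRegular_of_flat {R : Type*} [CommRing R] (F : Type*) [AddCommGroup F] [Module R F]
    [Module.Flat R F] {rs : List R} (h : RingTheory.Sequence.IsWeaklyRegular R rs) :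
    RingTheory.Sequence.IsWeaklyRegular F rs :=
  (LinearEquiv.isWeaklyRegular_congr (TensorProduct.rid R F) rs).mp
    (h.isWeaklyRegular_lTensor (M₂ := F))

/-- (G2)+(G3): the sequence `ϖ, X_0, …, X_{r-1}` is weakly regular on the free module
`Fin d → O⟦X_0, …, X_{r-1}⟧`. -/
theorem isWeaklyRegular_pi [IsDomain O] (r d : ℕ) (ϖ : O) (hϖ : ϖ ≠ 0) :
    RingTheory.Sequence.IsWeaklyRegular (Fin d → MvPowerSeries (Fin r) O)
      ((C ϖ : MvPowerSeries (Fin r) O) :: List.ofFn (X : Fin r → MvPowerSeries (Fin r) O)) :=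
  isWeaklyRegular_of_flat _ (isWeaklyRegular_C_cons_X_of_ne_zero r ϖ hϖ)

/-- All members of the sequence lie in the maximal ideal. -/
theorem mem_maximalIdeal_of_mem [IsDomain O] [IsDiscreteValuationRing O] (r : ℕ) (ϖ : O)
    (hϖ : Irreducible ϖ) (x : MvPowerSeries (Fin r) O)
    (hx : x ∈ (C ϖ : MvPowerSeries (Fin r) O) :: List.ofFn (X : Fin r → MvPowerSeries (Fin r) O)) :
    x ∈ IsLocalRing.maximalIdeal (MvPowerSeries (Fin r) O) := by
  rw [maximalIdeal_eq_ofList r ϖ hϖ]
  exact Ideal.subset_span hx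

theorem length_C_cons_X (r : ℕ) (ϖ : O) :
    ((C ϖ : MvPowerSeries (Fin r) O) ::
      List.ofFn (X : Fin r → MvPowerSeries (Fin r) O)).length = r + 1 := by
  rw [List.length_cons, List.length_ofFn]

end Fermat.Agent.S57.H54
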