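import Fermat.Prelude.Def_Algebra_PatchingDatum
import Mathlib

set_option autoImplicit false

namespace Fermat.Agent.S57.H94

open MvPowerSeries

section Basis

variable {A : Type*} [CommRing A] {N : Type*} [AddCommGroup N] [Module A N]

lemma repr_mem_of_mem_smul_top {ι : Type*} (e : Module.Basis ι A N) (I : Ideal A) {x : N}
    (hx : x ∈ I • (⊤ : Submodule A N)) (j : ι) : e.repr x j ∈ I := by
  rw [← e.span_eq, Submodule.mem_ideal_smul_span_iff_exists_sum] at hx
  obtain ⟨a, ha, rfl⟩ := hx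
  have : e.repr (a.sum fun i c => c • e i) = a := by
    have h := e.repr_linearCombination a
    rwa [Finsupp.linearCombination_apply] at h
  rw [this]
  exact ha j

lemma coeff_mem_of_sum_mem_smul_top {ι : Type*} (e : Module.Basis ι A N) (I : Ideal A)
    (s : Finset ι) (c : ι → A) (hx : ∑ i ∈ s, c i • e i ∈ I • (⊤ : Submodule A N))
    {j : ι} (hj : j ∈ s) : c j ∈ I := by
  classical
  have h := repr_mem_of_mem_smul_top e I hx j
  have h2 : e.repr (∑ i ∈ s, c i • e i) j = c j := by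
    rw [map_sum, Finsupp.finsetSum_apply]
    simp only [map_smul, Module.Basis.repr_self, Finsupp.smul_apply, smul_eq_mul]
    rw [Finset.sum_eq_single j]
    · simp
    · intro i _ hij
      simp [hij]
    · intro h; exact absurd hj h
  rwa [h2] at h

end Basis

section Wiring

variable {𝒪 : Type} [CommRing 𝒪] {r : ℕ} {R : Type} [CommRing R] [Algebra 𝒪 R]
  {M : Type} [AddCommGroup M] [Module R M]

/-- The ideal generated by the `φ (X i)`. -/
noncomputable def relIdeal (L : Algebra.PatchingLevel 𝒪 r R M ⊥) : Ideal (MvPowerSeries (Fin r) 𝒪) :=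
  Ideal.span (Set.range fun i : Fin r => L.φ (MvPowerSeries.X i))

lemma relIdeal_le_ker (L : Algebra.PatchingLevel 𝒪 r R M ⊥) :
    relIdeal L ≤ RingHom.ker L.ψ := by
  unfold relIdeal
  rw [Ideal.span_le]
  rintro _ ⟨i, rfl⟩
  exact L.ψ_φ_X i

lemma pi_sum (L : Algebra.PatchingLevel 𝒪 r R M ⊥) {ι : Type*} (s : Finset ι)
    (f : ι → MvPowerSeries (Fin r) 𝒪) (g : ι → L.N) :
    L.π (∑ i ∈ s, f i • g i) = ∑ i ∈ s, L.ψ (f i) • L.π (g i) := by
  rw [map_sum]
  exact Finset.sum_congr rfl fun i _ => L.π_smul _ _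

lemma mem_relIdeal_of_pi_sum_eq_zero (L : Algebra.PatchingLevel 𝒪 r R M ⊥)
    {ι : Type*} (e : Module.Basis ι (MvPowerSeries (Fin r) 𝒪) L.N)
    (s : Finset ι) (c : ι → MvPowerSeries (Fin r) 𝒪)
    (h : L.π (∑ i ∈ s, c i • e i) = 0) {j : ι} (hj : j ∈ s) : c j ∈ relIdeal L :=
  coeff_mem_of_sum_mem_smul_top e (relIdeal L) s c ((L.ker_π _).1 h) hj

lemma mem_relIdeal_of_pi_smul_eq_zero (L : Algebra.PatchingLevel 𝒪 r R M ⊥)
    {ι : Type*} (e : Module.Basis ι (MvPowerSeries (Fin r) 𝒪) L.N)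
    (f : MvPowerSeries (Fin r) 𝒪) (j : ι)
    (h : L.π (f • e j) = 0) : f ∈ relIdeal L := by
  have := mem_relIdeal_of_pi_sum_eq_zero L e {j} (fun _ => f) (by simpa using h)
    (Finset.mem_singleton_self j)
  exact this

theorem ker_eq_of_free (L : Algebra.PatchingLevel 𝒪 r R M ⊥) [Nontrivial M]
    [Module.Free (MvPowerSeries (Fin r) 𝒪) L.N] :
    RingHom.ker L.ψ = relIdeal L := by
  apply le_antisymm _ (relIdeal_le_ker L)
  intro f hf
  let e := Module.Free.chooseBasis (MvPowerSeries (Fin r) 𝒪) L.N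
  have hN : Nontrivial L.N := L.π_surjective.nontrivial
  obtain ⟨j⟩ : Nonempty (Module.Free.ChooseBasisIndex (MvPowerSeries (Fin r) 𝒪) L.N) :=
    e.index_nonempty
  exact mem_relIdeal_of_pi_smul_eq_zero L e f j (by
    rw [L.π_smul, (RingHom.mem_ker).1 hf, zero_smul])

theorem free_of_free (L : Algebra.PatchingLevel 𝒪 r R M ⊥)
    [Module.Free (MvPowerSeries (Fin r) 𝒪) L.N] :
    Module.Free R M := by
  classical
  let e := Module.Free.chooseBasis (MvPowerSeries (Fin r) 𝒪) L.N
  let v : Module.Free.ChooseBasisIndex (MvPowerSeries (Fin r) 𝒪) L.N → M := fun j => L.π (e j)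
  have hli : LinearIndependent R v := by
    rw [linearIndependent_iff']
    intro s l hl j hj
    choose g hg using L.ψ_surjective
    have hsum : L.π (∑ i ∈ s, g (l i) • e i) = 0 := by
      rw [pi_sum, ← hl]
      exact Finset.sum_congr rfl fun i _ => by rw [hg]
    have := relIdeal_le_ker L (mem_relIdeal_of_pi_sum_eq_zero L e s (fun i => g (l i)) hsum hj)
    rwa [RingHom.mem_ker, hg] at this
  have hsp : ⊤ ≤ Submodule.span R (Set.range v) := by
    intro m _
    obtain ⟨x, rfl⟩ := L.π_surjective m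
    have hx : x = (e.repr x).sum fun i c => c • e i := by
      have := e.linearCombination_repr x
      rw [Finsupp.linearCombination_apply] at this
      exact this.symm
    rw [hx, Finsupp.sum, pi_sum]
    exact Submodule.sum_mem _ fun j _ =>
      Submodule.smul_mem _ _ (Submodule.subset_span ⟨j, rfl⟩)
  exact Module.Free.of_basis (Module.Basis.mk hli hsp)

theorem annihilator_eq_bot_of_free (L : Algebra.PatchingLevel 𝒪 r R M ⊥) [Nontrivial M]
    [Module.Free (MvPowerSeries (Fin r) 𝒪) L.N] :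
    Module.annihilator R M = ⊥ := by
  rw [eq_bot_iff]
  intro a ha
  rw [Module.mem_annihilator] at ha
  obtain ⟨f, rfl⟩ := L.ψ_surjective a
  let e := Module.Free.chooseBasis (MvPowerSeries (Fin r) 𝒪) L.N
  have hN : Nontrivial L.N := L.π_surjective.nontrivial
  obtain ⟨j⟩ : Nonempty (Module.Free.ChooseBasisIndex (MvPowerSeries (Fin r) 𝒪) L.N) :=
    e.index_nonempty
  have h := mem_relIdeal_of_pi_smul_eq_zero L e f j (by rw [L.π_smul, ha])
  exact relIdeal_le_ker L h

/-- (W1) Everything follows once `L.N` is free over the power series ring. -/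
theorem result_of_free (L : Algebra.PatchingLevel 𝒪 r R M ⊥) [Nontrivial M]
    (hfree : Module.Free (MvPowerSeries (Fin r) 𝒪) L.N) :
    Module.Free R M ∧ Module.annihilator R M = ⊥ ∧
      RingHom.ker L.ψ = Ideal.span (Set.range fun i : Fin r => L.φ (MvPowerSeries.X i)) :=
  ⟨free_of_free L, annihilator_eq_bot_of_free L, ker_eq_of_free L⟩

end Wiring

open RingTheory.Sequence

section Pi

variable {A : Type*} [CommRing A]

open TensorProduct in
lemma isWeaklyRegular_pi_of_self (d : ℕ) {xs : List A} (h : IsWeaklyRegular A xs) :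
    IsWeaklyRegular (Fin d → A) xs := by
  have h1 : IsWeaklyRegular ((Fin d → A) ⊗[A] A) xs := h.isWeaklyRegular_lTensor
  exact ((TensorProduct.rid A (Fin d → A)).isWeaklyRegular_congr xs).1 h1

end Pi

section Transport

variable {𝒪 : Type} [CommRing 𝒪] {r : ℕ} {R : Type} [CommRing R] [Algebra 𝒪 R]
  {M : Type} [AddCommGroup M] [Module R M]

/-- The map `c ↦ ∑ i, φ (c i) • b i` as an additive equivalence. -/
noncomputable def coordEquiv (L : Algebra.PatchingLevel 𝒪 r R M ⊥) :
    (Fin L.d → MvPowerSeries (Fin r) 𝒪) ≃+ L.N :=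
  AddEquiv.ofBijective
    ({ toFun := fun c => ∑ i, L.φ (c i) • L.b i
       map_zero' := by simp
       map_add' := by
        intro c c'
        simp [add_smul, Finset.sum_add_distrib] } : (Fin L.d → MvPowerSeries (Fin r) 𝒪) →+ L.N)
    (by
      constructor
      · rw [injective_iff_map_eq_zero]
        intro c hc
        have := (L.b_rel c).1 hc
        funext i
        simpa using this i
      · intro x
        obtain ⟨c, hc⟩ := L.b_span x
        exact ⟨c, hc.symm⟩)

lemma coordEquiv_apply (L : Algebra.PatchingLevel 𝒪 r R M ⊥)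
    (c : Fin L.d → MvPowerSeries (Fin r) 𝒪) :
    coordEquiv L c = ∑ i, L.φ (c i) • L.b i := rfl

lemma coordEquiv_smul (L : Algebra.PatchingLevel 𝒪 r R M ⊥)
    (f : MvPowerSeries (Fin r) 𝒪) (c : Fin L.d → MvPowerSeries (Fin r) 𝒪) :
    coordEquiv L (f • c) = L.φ f • coordEquiv L c := by
  simp only [coordEquiv_apply, Pi.smul_apply, smul_eq_mul, map_mul, mul_smul, Finset.smul_sum]

/-- (W2a) transport of weakly regular sequences along `φ`. -/
theorem isWeaklyRegular_map_phi (L : Algebra.PatchingLevel 𝒪 r R M ⊥)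
    {xs : List (MvPowerSeries (Fin r) 𝒪)}
    (h : IsWeaklyRegular (MvPowerSeries (Fin r) 𝒪) xs) :
    IsWeaklyRegular L.N (xs.map L.φ) := by
  have h1 : IsWeaklyRegular (Fin L.d → MvPowerSeries (Fin r) 𝒪) xs :=
    isWeaklyRegular_pi_of_self L.d h
  refine ((coordEquiv L).isWeaklyRegular_congr (as := xs) (bs := xs.map L.φ) ?_).1 h1
  exact List.forall₂_map_right_iff.mpr (List.forall₂_same.mpr fun f _ c => coordEquiv_smul L f c)

/-- (W2b) `L.N` is a finite module. -/
theorem finite_N (L : Algebra.PatchingLevel 𝒪 r R M ⊥) :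
    Module.Finite (MvPowerSeries (Fin r) 𝒪) L.N := by
  classical
  refine ⟨⟨Finset.univ.image L.b, ?_⟩⟩
  rw [eq_top_iff]
  intro x _
  obtain ⟨c, rfl⟩ := L.b_span x
  exact Submodule.sum_mem _ fun i _ =>
    Submodule.smul_mem _ _ (Submodule.subset_span (by simp))

/-- `φ` fixes constants. -/
lemma phi_C (L : Algebra.PatchingLevel 𝒪 r R M ⊥) (a : 𝒪) :
    L.φ (MvPowerSeries.C a) = MvPowerSeries.C a := by
  have h : (MvPowerSeries.C a : MvPowerSeries (Fin r) 𝒪) =
      algebraMap 𝒪 (MvPowerSeries (Fin r) 𝒪) a := by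
    rw [MvPowerSeries.algebraMap_apply]; rfl
  rw [h, AlgHom.commutes]

/-- (W2c) `φ (X i)` is a non-unit. -/
theorem phi_X_mem_maximalIdeal [IsLocalRing 𝒪] [Nontrivial M]
    (L : Algebra.PatchingLevel 𝒪 r R M ⊥) (i : Fin r) :
    L.φ (MvPowerSeries.X i) ∈ IsLocalRing.maximalIdeal (MvPowerSeries (Fin r) 𝒪) := by
  rw [IsLocalRing.mem_maximalIdeal, mem_nonunits_iff]
  intro hu
  have h1 : IsUnit (L.ψ (L.φ (MvPowerSeries.X i))) := hu.map L.ψ
  rw [L.ψ_φ_X] at h1
  have h2 : Subsingleton R := subsingleton_of_zero_eq_one (isUnit_zero_iff.mp h1)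
  have h3 : Subsingleton M := Module.subsingleton R M
  exact not_subsingleton M h3

lemma C_mem_maximalIdeal [IsLocalRing 𝒪] {a : 𝒪} (ha : a ∈ IsLocalRing.maximalIdeal 𝒪) :
    (MvPowerSeries.C a : MvPowerSeries (Fin r) 𝒪) ∈
      IsLocalRing.maximalIdeal (MvPowerSeries (Fin r) 𝒪) := by
  rw [IsLocalRing.mem_maximalIdeal, mem_nonunits_iff] at ha ⊢
  intro hu
  apply ha
  have := (MvPowerSeries.isUnit_iff_constantCoeff).1 hu
  simpa using this

/-- (W2d) the image under `φ` of the standard parameters lies in the maximal ideal. -/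
theorem phi_mem_maximalIdeal [IsLocalRing 𝒪] [Nontrivial M]
    (L : Algebra.PatchingLevel 𝒪 r R M ⊥) {ϖ : 𝒪} (hϖ : ϖ ∈ IsLocalRing.maximalIdeal 𝒪)
    {x : MvPowerSeries (Fin r) 𝒪}
    (hx : x = MvPowerSeries.C ϖ ∨ ∃ i : Fin r, x = MvPowerSeries.X i) :
    L.φ x ∈ IsLocalRing.maximalIdeal (MvPowerSeries (Fin r) 𝒪) := by
  rcases hx with rfl | ⟨i, rfl⟩
  · rw [phi_C]; exact C_mem_maximalIdeal hϖ
  · exact phi_X_mem_maximalIdeal L i

/-- (W3) glue, generic in the parameter list `xs`: if `xs` is weakly regular on the power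
series ring, `φ` maps `xs` into the maximal ideal, and any finite module with a weakly regular
sequence of that length in the maximal ideal is free, then the conclusions hold. -/
theorem result_of_core [IsLocalRing 𝒪] [Nontrivial M]
    (L : Algebra.PatchingLevel 𝒪 r R M ⊥)
    (xs : List (MvPowerSeries (Fin r) 𝒪))
    (hxs : IsWeaklyRegular (MvPowerSeries (Fin r) 𝒪) xs)
    (hmem : ∀ x ∈ xs, L.φ x ∈ IsLocalRing.maximalIdeal (MvPowerSeries (Fin r) 𝒪))
    (hcore : Module.Finite (MvPowerSeries (Fin r) 𝒪) L.N →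
      ∀ rs : List (MvPowerSeries (Fin r) 𝒪), rs.length = xs.length →
      (∀ x ∈ rs, x ∈ IsLocalRing.maximalIdeal (MvPowerSeries (Fin r) 𝒪)) →
      IsWeaklyRegular L.N rs → Module.Free (MvPowerSeries (Fin r) 𝒪) L.N) :
    Module.Free R M ∧ Module.annihilator R M = ⊥ ∧
      RingHom.ker L.ψ = Ideal.span (Set.range fun i : Fin r => L.φ (MvPowerSeries.X i)) := by
  refine result_of_free L (hcore (finite_N L) (xs.map L.φ) (by simp) ?_
    (isWeaklyRegular_map_phi L hxs))
  intro y hy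
  obtain ⟨x, hx, rfl⟩ := List.mem_map.1 hy
  exact hmem x hx

/-- (W3') glue for the list `C ϖ :: List.ofFn X`. -/
theorem result_of_core_cons [IsLocalRing 𝒪] [Nontrivial M]
    (L : Algebra.PatchingLevel 𝒪 r R M ⊥) {ϖ : 𝒪} (hϖ : ϖ ∈ IsLocalRing.maximalIdeal 𝒪)
    (hxs : IsWeaklyRegular (MvPowerSeries (Fin r) 𝒪)
      (MvPowerSeries.C ϖ :: List.ofFn (fun i : Fin r => (MvPowerSeries.X i : MvPowerSeries (Fin r) 𝒪))))
    (hcore : Module.Finite (MvPowerSeries (Fin r) 𝒪) L.N →
      ∀ rs : List (MvPowerSeries (Fin r) 𝒪), rs.length = r + 1 →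
      (∀ x ∈ rs, x ∈ IsLocalRing.maximalIdeal (MvPowerSeries (Fin r) 𝒪)) →
      IsWeaklyRegular L.N rs → Module.Free (MvPowerSeries (Fin r) 𝒪) L.N) :
    Module.Free R M ∧ Module.annihilator R M = ⊥ ∧
      RingHom.ker L.ψ = Ideal.span (Set.range fun i : Fin r => L.φ (MvPowerSeries.X i)) := by
  refine result_of_core L _ hxs ?_ (fun hfin rs hlen => hcore hfin rs (by simpa using hlen))
  intro x hx
  refine phi_mem_maximalIdeal L hϖ ?_
  rcases List.mem_cons.1 hx with h | h
  · exact Or.inl h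
  · obtain ⟨i, rfl⟩ := (List.mem_ofFn' _ _).1 h
    exact Or.inr ⟨i, rfl⟩

end Transport

end Fermat.Agent.S57.H94
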